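import Mathlib
import Fermat.Prelude.Def_ModularCurve_LaurentCoeff
import Fermat.Prelude.Def_ModularCurve_X0ModL
import Fermat.Prelude.Def_ModularCurve_ArithmeticGalois
import Fermat.Agent.S24_helper62.FieldGen

/-!
# GATE-J / J3-GU (helper42): Gauss-normalised representatives

`A` a valuation subring of a field `L`.  A nonzero Laurent series `f ∈ L((q))` all of whose
coefficients lie in a finitely generated `ℤ`-submodule of `L` is `c · g` with `c ≠ 0` a constant
and `g ∈ A((q))` having a coefficient equal to `1` (so nonzero reduction).  Polynomial expressions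
in the `j(q^d)` have this property, hence every nonzero element of the function field
`L(j(q^d) : d ∣ N)` is `c · a / b` with `a, b ∈ A((q))` in the field and nonzero reductions.
-/

set_option autoImplicit false

noncomputable section

namespace Fermat.Agent.GJ.GU

open HahnSeries ModularCurve

variable {L : Type*} [Field L] (A : ValuationSubring L)

/-- integer combinations of elements of valuation `≤ v c` are divisible by `c` in `A`. -/
theorem div_mem_of_mem_span {c : L} (T : Set L)
    (hT : ∀ t ∈ T, A.valuation t ≤ A.valuation c) {x : L}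
    (hx : x ∈ Submodule.span ℤ T) : x / c ∈ A := by
  by_cases hc : c = 0
  · subst hc; simp
  induction hx using Submodule.span_induction with
  | mem t ht =>
    rw [← A.valuation_le_one_iff, map_div₀]
    exact div_le_one_of_le₀ (hT t ht) zero_le
  | zero => simp
  | add x y _ _ hx hy => rw [add_div]; exact A.add_mem _ _ hx hy
  | smul z x _ hx =>
    rw [zsmul_eq_mul, mul_div_assoc]
    exact A.mul_mem _ _ (intCast_mem A z) hx

/-- **Key lemma**: a nonzero Laurent series whose coefficients lie in a finitely generated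
`ℤ`-submodule is a constant times an `A`-integral series with a coefficient equal to `1`. -/
theorem exists_gauss_normalisation (f : LaurentSeries L) (hf : f ≠ 0)
    (T : Set L) (hTfin : T.Finite) (hT : ∀ n : ℤ, f.coeff n ∈ Submodule.span ℤ T) :
    ∃ (c : L) (g : LaurentSeries A), c ≠ 0 ∧ f = HahnSeries.C c * coeffMap A.subtype g ∧
      ∃ n₀ : ℤ, g.coeff n₀ = 1 := by
  classical
  set S : Set L := Set.range f.coeff with hS
  have hle : Submodule.span ℤ S ≤ Submodule.span ℤ T :=
    Submodule.span_le.mpr (by rintro _ ⟨n, rfl⟩; exact hT n)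
  have hfg : (Submodule.span ℤ S).FG :=
    Submodule.FG.of_le (Submodule.fg_span hTfin) hle
  obtain ⟨T', hT'S, hT'span⟩ := (Submodule.fg_span_iff_fg_span_finset_subset S).mp hfg
  -- `T'` is nonempty
  have hne : T'.Nonempty := by
    rw [Finset.nonempty_iff_ne_empty]
    rintro rfl
    apply hf
    ext n
    have : f.coeff n ∈ Submodule.span ℤ S := Submodule.subset_span ⟨n, rfl⟩
    rw [hT'span] at this
    simpa using this
  obtain ⟨c, hcT', hmax⟩ := Finset.exists_max_image T' (fun t => A.valuation t) hne
  obtain ⟨n₀, hn₀⟩ : ∃ n₀, f.coeff n₀ = c := hT'S hcT'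
  have hc : c ≠ 0 := by
    rintro rfl
    apply hf
    ext n
    have h1 : f.coeff n ∈ Submodule.span ℤ S := Submodule.subset_span ⟨n, rfl⟩
    rw [hT'span] at h1
    have h2 : ∀ t ∈ (T' : Set L), t = 0 := by
      intro t ht
      have := hmax t ht
      rw [map_zero] at this
      exact (map_eq_zero (A.valuation)).mp (le_antisymm this zero_le)
    have h3 : Submodule.span ℤ (T' : Set L) ≤ ⊥ :=
      Submodule.span_le.mpr (fun t ht => by simp [h2 t ht])
    simpa using h3 h1
  have hdiv : ∀ n : ℤ, f.coeff n / c ∈ A := by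
    intro n
    have h1 : f.coeff n ∈ Submodule.span ℤ (T' : Set L) := by
      rw [← hT'span]; exact Submodule.subset_span ⟨n, rfl⟩
    exact div_mem_of_mem_span A (T' : Set L) (fun t ht => hmax t ht) h1
  -- the series `g`
  let g : LaurentSeries A :=
    { coeff := fun n => ⟨f.coeff n / c, hdiv n⟩
      isPWO_support' := by
        refine f.isPWO_support.mono ?_
        intro n hn
        simp only [Function.mem_support, ne_eq] at hn ⊢
        intro h0
        apply hn
        apply Subtype.ext
        simp [h0] }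
  refine ⟨c, g, hc, ?_, n₀, ?_⟩
  · ext n
    rw [HahnSeries.C_mul_eq_smul, HahnSeries.coeff_smul, coeffMap_coeff]
    show f.coeff n = c • (f.coeff n / c)
    rw [smul_eq_mul, mul_div_cancel₀ _ hc]
  · apply Subtype.ext
    show f.coeff n₀ / c = 1
    rw [hn₀, div_self hc]

/-- the coefficients of a polynomial expression in integral series lie in the `ℤ`-span of the
coefficients of the polynomial. -/
theorem coeff_aeval_mem_span {σ : Type*} (M : σ → LaurentSeries ℤ) (P : MvPolynomial σ L) (n : ℤ) :
    (MvPolynomial.aeval (fun i => coeffMap (Int.castRingHom L) (M i)) P).coeff n ∈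
      Submodule.span ℤ (P.coeff '' (P.support : Set (σ →₀ ℕ))) := by
  classical
  rw [MvPolynomial.aeval_def, MvPolynomial.eval₂_eq]
  revert n
  refine Finset.sum_induction _
    (fun x : LaurentSeries L => ∀ n : ℤ, x.coeff n ∈
      Submodule.span ℤ (P.coeff '' (P.support : Set (σ →₀ ℕ)))) ?_ ?_ ?_
  · intro x y hx hy n
    rw [HahnSeries.coeff_add]
    exact Submodule.add_mem _ (hx n) (hy n)
  · intro n
    simp
  · intro d hd n
    have h1 : (∏ i ∈ d.support, (coeffMap (Int.castRingHom L) (M i)) ^ d i) =
        coeffMap (Int.castRingHom L) (∏ i ∈ d.support, M i ^ d i) := by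
      rw [map_prod]
      simp only [map_pow]
    rw [h1, algebraMap_laurentSeries_eq_single, HahnSeries.coeff_single_zero_mul,
      coeffMap_coeff]
    have h2 : P.coeff d * (Int.castRingHom L) ((∏ i ∈ d.support, M i ^ d i).coeff n) =
        ((∏ i ∈ d.support, M i ^ d i).coeff n) • P.coeff d := by
      rw [zsmul_eq_mul, mul_comm]
      rfl
    rw [h2]
    refine Submodule.smul_mem _ _ (Submodule.subset_span ?_)
    exact ⟨d, Finset.mem_coe.mpr hd, rfl⟩

open Fermat.Agent.S24_helper62 (DivIdx jFam exists_div_of_mem_full aeval_jFam_mem_full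
  modularFunctionFieldBar_eq)

section Field

variable (N : ℕ) [NeZero N]

/-- the generators `j(q^d)` have integer coefficients -/
theorem jFam_eq_coeffMap (d : DivIdx N) :
    jFam L N d = coeffMap (Int.castRingHom L) (qExpand ℤ d.1 (jqModC ℤ)) := by
  rw [jFam, coeffMap_qExpand, coeffMap_jqModC]

/-- Gauss normalisation of a polynomial expression in the `j(q^d)`. -/
theorem exists_gauss_normalisation_aeval (P : MvPolynomial (DivIdx N) L)
    (hP : MvPolynomial.aeval (jFam L N) P ≠ 0) :
    ∃ (c : L) (g : LaurentSeries A), c ≠ 0 ∧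
      MvPolynomial.aeval (jFam L N) P = HahnSeries.C c * coeffMap A.subtype g ∧
      ∃ n₀ : ℤ, g.coeff n₀ = 1 := by
  have hfam : jFam L N = fun d : DivIdx N =>
      coeffMap (Int.castRingHom L) (qExpand ℤ d.1 (jqModC ℤ)) :=
    funext fun d => jFam_eq_coeffMap N d
  refine exists_gauss_normalisation A _ hP (P.coeff '' (P.support : Set (DivIdx N →₀ ℕ)))
    ((Finset.finite_toSet _).image _) (fun n => ?_)
  rw [hfam]
  exact coeff_aeval_mem_span _ P n

/-- **Gauss fractions** in `L(j(q^d) : d ∣ N)`: every nonzero element is `c · a / b` with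
`a, b ∈ A((q))` in the field, each having a coefficient equal to `1`. -/
theorem exists_gaussFrac_full (u : LaurentSeries L) (hu : u ∈ modularFunctionFieldFullC L N)
    (hu0 : u ≠ 0) :
    ∃ (c : L) (a b : LaurentSeries A), c ≠ 0 ∧
      coeffMap A.subtype a ∈ modularFunctionFieldFullC L N ∧
      coeffMap A.subtype b ∈ modularFunctionFieldFullC L N ∧
      (∃ n : ℤ, a.coeff n = 1) ∧ (∃ n : ℤ, b.coeff n = 1) ∧
      u * coeffMap A.subtype b = HahnSeries.C c * coeffMap A.subtype a := by
  obtain ⟨P, Q, rfl⟩ := exists_div_of_mem_full L N hu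
  have hQ : MvPolynomial.aeval (jFam L N) Q ≠ 0 := by
    intro h; apply hu0; rw [h, div_zero]
  have hP : MvPolynomial.aeval (jFam L N) P ≠ 0 := by
    intro h; apply hu0; rw [h, zero_div]
  obtain ⟨cP, a, hcP, haP, ha1⟩ := exists_gauss_normalisation_aeval A N P hP
  obtain ⟨cQ, b, hcQ, hbQ, hb1⟩ := exists_gauss_normalisation_aeval A N Q hQ
  have hCP : (HahnSeries.C cP : LaurentSeries L) ≠ 0 := HahnSeries.C_ne_zero hcP
  have hCQ : (HahnSeries.C cQ : LaurentSeries L) ≠ 0 := HahnSeries.C_ne_zero hcQ
  have hCmem : ∀ c : L, (HahnSeries.C c : LaurentSeries L) ∈ modularFunctionFieldFullC L N := by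
    intro c
    have : (HahnSeries.C c : LaurentSeries L) = algebraMap L (LaurentSeries L) c := by
      rw [algebraMap_laurentSeries_eq_single]; rfl
    rw [this]
    exact (modularFunctionFieldFullC L N).algebraMap_mem c
  have hamem : coeffMap A.subtype a ∈ modularFunctionFieldFullC L N := by
    have h1 : coeffMap A.subtype a = (HahnSeries.C cP)⁻¹ * MvPolynomial.aeval (jFam L N) P := by
      rw [haP, ← mul_assoc, inv_mul_cancel₀ hCP, one_mul]
    rw [h1]
    exact mul_mem (inv_mem (hCmem cP)) (aeval_jFam_mem_full L N P)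
  have hbmem : coeffMap A.subtype b ∈ modularFunctionFieldFullC L N := by
    have h1 : coeffMap A.subtype b = (HahnSeries.C cQ)⁻¹ * MvPolynomial.aeval (jFam L N) Q := by
      rw [hbQ, ← mul_assoc, inv_mul_cancel₀ hCQ, one_mul]
    rw [h1]
    exact mul_mem (inv_mem (hCmem cQ)) (aeval_jFam_mem_full L N Q)
  have hb0 : coeffMap A.subtype b ≠ 0 := by
    intro h; apply hQ; rw [hbQ, h, mul_zero]
  refine ⟨cP / cQ, a, b, div_ne_zero hcP hcQ, hamem, hbmem, ha1, hb1, ?_⟩
  rw [haP, hbQ, map_div₀]
  field_simp

/-- a series over `A` with a coefficient equal to `1` has nonzero reduction -/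
theorem coeffMap_residue_ne_zero {a : LaurentSeries A} (h : ∃ n : ℤ, a.coeff n = 1) :
    coeffMap (IsLocalRing.residue A) a ≠ 0 := by
  obtain ⟨n, hn⟩ := h
  intro h0
  have h1 := congrArg (fun x : LaurentSeries (IsLocalRing.ResidueField A) => x.coeff n) h0
  simp only [coeffMap_coeff, hn, map_one, HahnSeries.coeff_zero] at h1
  exact one_ne_zero h1

end Field

section Qbar

/-- **(GU) interface of GATE-J / J3** (fraction + constant form): every nonzero element of the
function field `ℚ̄(X₀(N))` is `c · a / b` with `c ∈ ℚ̄ˣ` and `a, b ∈ A((q))` elements of the field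
with nonzero reduction modulo the maximal ideal of `A`. -/
def GaussFrac (N : ℕ) (A : ValuationSubring (AlgebraicClosure ℚ)) : Prop :=
  ∀ u : LaurentSeries (AlgebraicClosure ℚ), u ∈ modularFunctionFieldBar N → u ≠ 0 →
    ∃ (c : AlgebraicClosure ℚ) (a b : LaurentSeries A), c ≠ 0 ∧
      coeffMap A.subtype a ∈ modularFunctionFieldBar N ∧
      coeffMap A.subtype b ∈ modularFunctionFieldBar N ∧
      coeffMap (IsLocalRing.residue A) a ≠ 0 ∧ coeffMap (IsLocalRing.residue A) b ≠ 0 ∧
      u * coeffMap A.subtype b = HahnSeries.C c * coeffMap A.subtype a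

/-- `GaussFrac` holds for every level and EVERY valuation subring of `ℚ̄`. -/
theorem gaussFrac (N : ℕ) [NeZero N] (A : ValuationSubring (AlgebraicClosure ℚ)) :
    GaussFrac N A := by
  intro u hu hu0
  rw [modularFunctionFieldBar_eq] at hu ⊢
  obtain ⟨c, a, b, hc, ha, hb, ha1, hb1, h⟩ := exists_gaussFrac_full A N u hu hu0
  exact ⟨c, a, b, hc, ha, hb, coeffMap_residue_ne_zero A ha1, coeffMap_residue_ne_zero A hb1, h⟩

end Qbar

end Fermat.Agent.GJ.GU
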